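import Fermat.Agent.LocalRingP.CondAtP
import Fermat.Agent.EigenRep.Cyclotomic
import Mathlib.GroupTheory.FiniteAbelian.Duality
import Mathlib.FieldTheory.Galois.Profinite

/-!
# Elements of inertia seeing only the valuation

`kummerKer A p` is the set of elements of inertia fixing every `p`-power root of an inertia-fixed
unit (in particular the roots of unity).  Some of its elements move the `p`-th roots of `p`.  For a
representation ordinary on inertia, conjugation by a decomposition element `φ` acts on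
`ρ g - 1`, `g` in `kummerKer`, by the cyclotomic character of `φ` (Kummer theory: only the
valuation part of the cocycle is seen there).
-/

set_option autoImplicit false

noncomputable section

open Fermat.Agent.DefRing
open scoped Pointwise

namespace Fermat.Agent.Engine

local notation "Ω" => AlgebraicClosure ℚ

variable {A : ValuationSubring Ω} {p : ℕ}

local instance isGaloisQbar_crys : IsGalois ℚ Ω :=
  have : Algebra.IsAlgebraic ℚ Ω := AlgebraicClosure.isAlgebraic ℚ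
  have : IsAlgClosure ℚ Ω := ⟨inferInstance, inferInstance⟩
  have : Normal ℚ Ω := IsAlgClosure.normal ℚ Ω
  have : Algebra.IsSeparable ℚ Ω := Algebra.IsAlgebraic.isSeparable_of_perfectField
  IsGalois.mk

/-- A unit of `A` fixed by inertia. -/
def IsFixedUnit (A : ValuationSubring Ω) (u : Ω) : Prop :=
  A.valuation u = 1 ∧ ∀ σ ∈ A.inertiaSubgroupIn ℚ, σ u = u

/-- The elements of inertia fixing the `p`-power roots of inertia-fixed units. -/
def kummerKer (A : ValuationSubring Ω) (p : ℕ) : Set GQ :=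
  {g | g ∈ A.inertiaSubgroupIn ℚ ∧ ∀ (x : Ω) (n : ℕ), IsFixedUnit A (x ^ p ^ n) → g x = x}

lemma mem_inertia_of_mem_kummerKer {g : GQ} (hg : g ∈ kummerKer A p) :
    g ∈ A.inertiaSubgroupIn ℚ := hg.1

lemma apply_root_of_unity (hp : p.Prime) {g : GQ} (hg : g ∈ kummerKer A p) {μ : Ω} {n : ℕ}
    (hμ : μ ^ p ^ n = 1) : g μ = μ := by
  have := hp.pos
  exact hg.2 μ n ⟨by rw [hμ, map_one], fun σ _ => by rw [hμ, map_one]⟩

/-- Inertia is normal in the decomposition group. -/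
lemma conj_mem_inertia {φ σ : GQ} (hφ : φ ∈ A.decompositionSubgroup ℚ)
    (hσ : σ ∈ A.inertiaSubgroupIn ℚ) : φ * σ * φ⁻¹ ∈ A.inertiaSubgroupIn ℚ :=
  LocalRingP.conj_mem_inertiaSubgroupIn (g := ⟨φ, hφ⟩)
    (σ := ⟨σ, MultRed.inertia_mem_decomposition hσ⟩) hσ

lemma IsFixedUnit.apply {u : Ω} (h : IsFixedUnit A u) {φ : GQ}
    (hφ : φ ∈ A.decompositionSubgroup ℚ) : IsFixedUnit A (φ u) := by
  refine ⟨(MultRed.decomp_isometry hφ u).trans h.1, fun σ hσ => ?_⟩
  have h1 := h.2 _ (conj_mem_inertia (inv_mem hφ) hσ)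
  rw [inv_inv, AlgEquiv.mul_apply, AlgEquiv.mul_apply] at h1
  have h2 := congrArg φ h1
  rwa [← AlgEquiv.mul_apply, mul_inv_cancel, AlgEquiv.one_apply] at h2

/-- `kummerKer` is stable under the decomposition group. -/
lemma conj_mem_kummerKer {g φ : GQ} (hg : g ∈ kummerKer A p)
    (hφ : φ ∈ A.decompositionSubgroup ℚ) : φ * g * φ⁻¹ ∈ kummerKer A p := by
  refine ⟨conj_mem_inertia hφ hg.1, fun x n hx => ?_⟩
  have h1 : g (φ⁻¹ x) = φ⁻¹ x := by
    refine hg.2 _ n ?_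
    rw [← map_pow]
    exact hx.apply (inv_mem hφ)
  rw [AlgEquiv.mul_apply, AlgEquiv.mul_apply, h1, ← AlgEquiv.mul_apply, mul_inv_cancel,
    AlgEquiv.one_apply]

section Exists

lemma isClosed_of_apply (x : Ω) (P : Ω → Prop) : IsClosed {σ : GQ | P (σ x)} := by
  refine isOpen_compl_iff.mp (isOpen_iff_mem_nhds.mpr fun σ hσ => ?_)
  have : FiniteDimensional ℚ (IntermediateField.adjoin ℚ ({x} : Set Ω)) :=
    IntermediateField.adjoin.finiteDimensional
      ((AlgebraicClosure.isAlgebraic ℚ).isAlgebraic x).isIntegral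
  have ho := IntermediateField.fixingSubgroup_isOpen (IntermediateField.adjoin ℚ ({x} : Set Ω))
  refine Filter.mem_of_superset ((ho.leftCoset σ).mem_nhds
    ⟨1, one_mem _, mul_one σ⟩) ?_
  rintro _ ⟨τ, hτ, rfl⟩
  show ¬ P ((σ * τ) x)
  rw [AlgEquiv.mul_apply, (IntermediateField.mem_fixingSubgroup_iff _ τ).mp hτ x
    (IntermediateField.mem_adjoin_simple_self ℚ x)]
  exact hσ

lemma isClosed_inertia (A : ValuationSubring Ω) :
    IsClosed (A.inertiaSubgroupIn ℚ : Set GQ) := by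
  have e : (A.inertiaSubgroupIn ℚ : Set GQ) =
      (⋂ x : Ω, {σ : GQ | σ x ∈ A ↔ x ∈ A}) ∩
      ⋂ x : A, {σ : GQ | σ (x : Ω) - x ∈ A.nonunits} := by
    ext σ
    simp only [SetLike.mem_coe, Set.mem_inter_iff, Set.mem_iInter, Set.mem_ofPred_eq,
      Frobenius.mem_inertiaSubgroupIn_iff]
    constructor
    · rintro ⟨hd, hx⟩
      refine ⟨fun x => ?_, fun x => ?_⟩
      · rw [← A.valuation_le_one_iff, MultRed.decomp_isometry hd, A.valuation_le_one_iff]
      · have h1 := hx (IsLocalRing.residue A x)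
        rw [← IsLocalRing.ResidueField.residue_smul, ← sub_eq_zero, ← map_sub,
          IsLocalRing.residue_eq_zero_iff, ← ValuationSubring.coe_mem_nonunits_iff] at h1
        exact h1
    · rintro ⟨h1, h2⟩
      have hd : σ ∈ A.decompositionSubgroup ℚ := by
        refine MulAction.mem_stabilizer_iff.mpr (SetLike.ext fun y => ?_)
        rw [ValuationSubring.mem_pointwise_smul_iff_inv_smul_mem, ← h1, AlgEquiv.smul_def,
          ← AlgEquiv.mul_apply, mul_inv_cancel, AlgEquiv.one_apply]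
      refine ⟨hd, fun y => ?_⟩
      obtain ⟨x, rfl⟩ := IsLocalRing.residue_surjective y
      rw [← IsLocalRing.ResidueField.residue_smul, ← sub_eq_zero, ← map_sub,
        IsLocalRing.residue_eq_zero_iff, ← ValuationSubring.coe_mem_nonunits_iff]
      exact h2 x
  rw [e]
  exact (isClosed_iInter fun x => isClosed_of_apply x (fun y => y ∈ A ↔ x ∈ A)).inter
    (isClosed_iInter fun x => isClosed_of_apply (x : Ω) (fun y => y - x ∈ A.nonunits))

/-- Kummer theory: an element fixed by everything fixing some roots differs from a product of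
them by an element fixed by the group. -/
theorem exists_kummer_quotient (hp : p.Prime) {n : ℕ} (W : List Ω) :
    ∀ (H : Subgroup GQ), (∀ g ∈ H, ∀ μ : Ω, μ ^ p ^ n = 1 → g μ = μ) →
    (∀ w ∈ W, w ≠ 0 ∧ ∀ g ∈ H, g (w ^ p ^ n) = w ^ p ^ n) →
    ∀ x : Ω, x ≠ 0 → (∀ g ∈ H, g (x ^ p ^ n) = x ^ p ^ n) →
    (∀ g ∈ H, (∀ w ∈ W, g w = w) → g x = x) →
    ∃ y ∈ Submonoid.closure {w | w ∈ W}, ∀ g ∈ H, g (x / y) = x / y := by
  induction W with
  | nil =>
    intro H _ _ x _ _ hfix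
    exact ⟨1, one_mem _, fun g hg => by rw [div_one]; exact hfix g hg (by simp)⟩
  | cons w W ih =>
    intro H hμ hW x hx hxp hfix
    have hN : p ^ n ≠ 0 := pow_ne_zero n hp.ne_zero
    obtain ⟨hw0, hwp⟩ := hW w (List.mem_cons_self ..)
    have hWt : ∀ y ∈ Submonoid.closure {v | v ∈ w :: W}, y ≠ 0 ∧
        ∀ g ∈ H, g (y ^ p ^ n) = y ^ p ^ n := fun y hy => by
      induction hy using Submonoid.closure_induction with
      | mem v hv => exact hW v hv
      | one => exact ⟨one_ne_zero, fun g _ => by simp⟩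
      | mul a b _ _ ha hb =>
        exact ⟨mul_ne_zero ha.1 hb.1, fun g hg => by rw [mul_pow, map_mul, ha.2 g hg, hb.2 g hg]⟩
    obtain ⟨y₀, hy₀, hy₀fix⟩ := ih (H ⊓ MulAction.stabilizer GQ w)
      (fun g hg => hμ g hg.1)
      (fun v hv => ⟨(hW v (List.mem_cons_of_mem _ hv)).1,
        fun g hg => (hW v (List.mem_cons_of_mem _ hv)).2 g hg.1⟩) x hx (fun g hg => hxp g hg.1)
      (fun g hg hgW => hfix g hg.1 (List.forall_mem_cons.mpr
        ⟨MulAction.mem_stabilizer_iff.mp hg.2, hgW⟩))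
    have hy₀' : y₀ ∈ Submonoid.closure {v | v ∈ w :: W} :=
      Submonoid.closure_mono (fun v hv => List.mem_cons_of_mem _ hv) hy₀
    set x' := x / y₀ with hx'
    have hx'0 : x' ≠ 0 := div_ne_zero hx (hWt y₀ hy₀').1
    have hx'p : ∀ g ∈ H, g (x' ^ p ^ n) = x' ^ p ^ n := fun g hg => by
      rw [hx', div_pow, map_div₀, hxp g hg, (hWt y₀ hy₀').2 g hg]
    -- the two characters
    have hpair : ∀ (v : Ω), v ≠ 0 → (∀ g ∈ H, g (v ^ p ^ n) = v ^ p ^ n) →
        (∀ g ∈ H, (g v / v) ^ p ^ n = 1) ∧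
        ∀ g ∈ H, ∀ h ∈ H, (g * h) v / v = (g v / v) * (h v / v) := by
      intro v hv hvp
      have h1 : ∀ g ∈ H, (g v / v) ^ p ^ n = 1 := fun g hg => by
        rw [div_pow, ← map_pow, hvp g hg, div_self (pow_ne_zero _ hv)]
      refine ⟨h1, fun g hg h hh => ?_⟩
      have h2 : g (h v / v) = h v / v := hμ g hg _ (h1 h hh)
      rw [map_div₀] at h2
      rw [AlgEquiv.mul_apply]
      have hgv : g v ≠ 0 := by simpa using hv
      field_simp at h2 ⊢
      linear_combination h2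
    obtain ⟨hr, hrmul⟩ := hpair w hw0 hwp
    obtain ⟨hs, hsmul⟩ := hpair x' hx'0 hx'p
    have hord : ∀ g ∈ H, ∃ e ≤ n, orderOf (g w / w) = p ^ e := fun g hg =>
      (Nat.dvd_prime_pow hp).mp (orderOf_dvd_of_pow_eq_one (hr g hg))
    have hbd : ∀ g : H, orderOf ((g : GQ) w / w) ≤ p ^ n := fun g =>
      Nat.le_of_dvd (pow_pos hp.pos n) (orderOf_dvd_of_pow_eq_one (hr g g.2))
    set S := Set.range fun g : H => orderOf ((g : GQ) w / w) with hS
    have hSb : BddAbove S := ⟨p ^ n, by rintro _ ⟨g, rfl⟩; exact hbd g⟩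
    obtain ⟨g₁, hm⟩ := Nat.sSup_mem (Set.range_nonempty _) hSb
    simp only at hm
    set m := sSup S with hmdef
    have hmax : m ∈ upperBounds S := fun a ha => le_csSup hSb ha
    have hm0 : m ≠ 0 := by
      rw [← hm]
      obtain ⟨e, -, he⟩ := hord g₁ g₁.2
      rw [he]; exact pow_ne_zero e hp.ne_zero
    have : NeZero m := ⟨hm0⟩
    have hprim : IsPrimitiveRoot ((g₁ : GQ) w / w) m := hm ▸ IsPrimitiveRoot.orderOf _
    have hpow : ∀ (v : Ω), v ≠ 0 → (∀ g ∈ H, g (v ^ p ^ n) = v ^ p ^ n) → ∀ i : ℕ,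
        ((g₁ : GQ) ^ i) v / v = ((g₁ : GQ) v / v) ^ i := fun v hv hvp i => by
      induction i with
      | zero => rw [pow_zero, pow_zero, AlgEquiv.one_apply, div_self hv]
      | succ i ihi => rw [pow_succ, pow_succ,
          (hpair v hv hvp).2 _ (pow_mem g₁.2 i) _ g₁.2, ihi]
    -- every value is a power of the maximal one
    have hgen : ∀ g ∈ H, ∃ i : ℕ, g w / w = ((g₁ : GQ) w / w) ^ i := fun g hg => by
      have hdvd : orderOf (g w / w) ∣ m := by
        obtain ⟨e, -, he⟩ := hord g hg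
        obtain ⟨e₁, -, he₁⟩ := hord g₁ g₁.2
        have hle := hmax ⟨⟨g, hg⟩, rfl⟩
        simp only at hle hm
        rw [← hm, he₁, he] at hle
        rw [he, ← hm, he₁]
        exact Nat.pow_dvd_pow p ((Nat.pow_le_pow_iff_right hp.one_lt).mp hle)
      obtain ⟨i, -, hi⟩ := hprim.eq_pow_of_pow_eq_one (orderOf_dvd_iff_pow_eq_one.mp hdvd)
      exact ⟨i, hi.symm⟩
    -- kernel inclusion
    have hker : ∀ g ∈ H, g w / w = 1 → g x' / x' = 1 := fun g hg e => by
      rw [hy₀fix g ⟨hg, MulAction.mem_stabilizer_iff.mpr (eq_of_div_eq_one e)⟩, div_self hx'0]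
    obtain ⟨a, -, ha⟩ := hprim.eq_pow_of_pow_eq_one (ξ := (g₁ : GQ) x' / x') (by
      rw [← hpow x' hx'0 hx'p]
      refine hker _ (pow_mem g₁.2 m) ?_
      rw [hpow w hw0 hwp, hprim.pow_eq_one])
    refine ⟨y₀ * w ^ a, mul_mem hy₀' (pow_mem (Submonoid.subset_closure
      (show w ∈ {v | v ∈ w :: W} from List.mem_cons_self ..)) a),
      fun g hg => ?_⟩
    obtain ⟨i, hi⟩ := hgen g hg
    have hk : ((g₁ : GQ) ^ i)⁻¹ * g ∈ H := mul_mem (inv_mem (pow_mem g₁.2 i)) hg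
    have hsg : g x' / x' = ((g₁ : GQ) x' / x') ^ i := by
      have h1 := hrmul _ (pow_mem g₁.2 i) _ hk
      rw [mul_inv_cancel_left, hi, hpow w hw0 hwp] at h1
      have h2 := mul_left_cancel₀ (pow_ne_zero i (hprim.ne_zero hm0)) ((mul_one _).trans h1)
      have h3 := hsmul _ (pow_mem g₁.2 i) _ hk
      rwa [mul_inv_cancel_left, hker _ hk h2.symm, mul_one, hpow x' hx'0 hx'p] at h3
    rw [← ha, ← pow_mul, mul_comm a i, pow_mul, ← hi] at hsg
    have hgw : g w ≠ 0 := by simpa using hw0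
    rw [← div_div, ← hx', map_div₀, map_pow, div_eq_div_iff (pow_ne_zero _ hgw) (pow_ne_zero _ hw0)]
    rw [div_pow, div_eq_div_iff hx'0 (pow_ne_zero _ hw0)] at hsg
    linear_combination hsg

variable [Fact p.Prime]

/-- Some element of `kummerKer` moves a given `p`-th root of `p`. -/
theorem exists_kummerKer_moves (hp3 : 3 ≤ p) (hA : A.LiesOverPrime p) {π : Ω}
    (hπ : π ^ p = (p : Ω)) : ∃ g ∈ kummerKer A p, g π ≠ π := by
  classical
  have hp : p.Prime := Fact.out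
  by_contra hcon
  push Not at hcon
  have hπ0 : π ≠ 0 := fun e => Nat.cast_ne_zero.mpr hp.ne_zero (by
    rw [← hπ, e, zero_pow hp.ne_zero] : (p : Ω) = 0)
  let J : Type := {x : Ω × ℕ // IsFixedUnit A (x.1 ^ p ^ x.2)}
  let t : J → Set GQ := fun j => {g | g j.1.1 = j.1.1}
  have hs : IsCompact ((A.inertiaSubgroupIn ℚ : Set GQ) ∩ {g | g π ≠ π}) :=
    ((isClosed_inertia A).inter (isClosed_of_apply π (fun y => y ≠ π))).isCompact
  obtain ⟨u, hu⟩ := hs.elim_finite_subfamily_closed t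
    (fun j => isClosed_of_apply j.1.1 (fun y => y = j.1.1)) (by
      refine Set.eq_empty_iff_forall_notMem.mpr fun g ⟨⟨hgI, hgπ⟩, hgt⟩ => ?_
      exact hgπ (hcon g ⟨hgI, fun x n hx => Set.mem_iInter.mp hgt ⟨(x, n), hx⟩⟩))
  set n := u.sup (fun j : J => j.1.2) + 1 with hn
  obtain ⟨ζ, hζ⟩ := EigenRep.exists_primitiveRoot (p := p) n
  have hN : p ^ n ≠ 0 := pow_ne_zero n hp.ne_zero
  have : NeZero (p ^ n) := ⟨hN⟩
  set W : List Ω := u.toList.map fun j : J => j.1.1 with hW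
  have hWunit : ∀ w ∈ W, IsFixedUnit A (w ^ p ^ n) := fun w hw => by
    obtain ⟨j, hj, rfl⟩ := List.mem_map.mp hw
    have hle : j.1.2 ≤ n := (Finset.le_sup (f := fun j : J => j.1.2) (Finset.mem_toList.mp hj)).trans
      (Nat.le_succ _)
    rw [← Nat.add_sub_cancel' hle, pow_add, pow_mul]
    exact ⟨by rw [map_pow, j.2.1, one_pow], fun σ hσ => by rw [map_pow, j.2.2 σ hσ]⟩
  set H : Subgroup GQ := A.inertiaSubgroupIn ℚ ⊓ MulAction.stabilizer GQ ζ with hH
  have hHμ : ∀ g ∈ H, ∀ μ : Ω, μ ^ p ^ n = 1 → g μ = μ := fun g hg μ hμ => by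
    obtain ⟨i, -, rfl⟩ := hζ.eq_pow_of_pow_eq_one hμ
    rw [map_pow, show g ζ = ζ from MulAction.mem_stabilizer_iff.mp hg.2]
  have hπn : π ^ p ^ n = (p : Ω) ^ p ^ (n - 1) := by
    rw [← hπ, ← pow_mul, ← pow_succ', hn, Nat.add_sub_cancel]
  obtain ⟨y, hy, hyfix⟩ := exists_kummer_quotient hp W H hHμ
    (fun w hw => ⟨fun e => by
        have := (hWunit w hw).1
        rw [e, zero_pow hN, map_zero] at this
        exact zero_ne_one this,
      fun g hg => (hWunit w hw).2 g hg.1⟩) π hπ0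
    (fun g _ => by rw [hπn, map_pow, map_natCast]) (fun g hg hgW => by
      by_contra hne
      refine Set.eq_empty_iff_forall_notMem.mp hu g ⟨⟨hg.1, hne⟩, ?_⟩
      simp only [Set.mem_iInter]
      exact fun j hj => hgW _ (List.mem_map.mpr ⟨j, Finset.mem_toList.mpr hj, rfl⟩))
  have hyu : y ≠ 0 ∧ IsFixedUnit A (y ^ p ^ n) := by
    clear hyfix
    induction hy using Submonoid.closure_induction with
    | mem v hv =>
      refine ⟨fun e => ?_, hWunit v hv⟩
      have := (hWunit v hv).1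
      rw [e, zero_pow hN, map_zero] at this
      exact zero_ne_one this
    | one => exact ⟨one_ne_zero, by simp, fun σ _ => by simp⟩
    | mul a b _ _ ha hb =>
      exact ⟨mul_ne_zero ha.1 hb.1, by rw [mul_pow, map_mul, ha.2.1, hb.2.1, one_mul],
        fun σ hσ => by rw [mul_pow, map_mul, ha.2.2 σ hσ, hb.2.2 σ hσ]⟩
  set v := π / y with hv
  have hv0 : v ≠ 0 := div_ne_zero hπ0 hyu.1
  have hvp : ∀ σ ∈ A.inertiaSubgroupIn ℚ, σ (v ^ p ^ n) = v ^ p ^ n := fun σ hσ => by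
    rw [hv, div_pow, map_div₀, hyu.2.2 σ hσ, hπn, map_pow, map_natCast]
  -- the cocycle of `v` on inertia is a coboundary
  have hexp : ∀ σ ∈ A.inertiaSubgroupIn ℚ, ∃ i : ℕ, σ v = ζ ^ i * v := fun σ hσ => by
    obtain ⟨i, -, hi⟩ := hζ.eq_pow_of_pow_eq_one (show (σ v / v) ^ p ^ n = 1 by
      rw [div_pow, ← map_pow, hvp σ hσ, div_self (pow_ne_zero _ hv0)])
    exact ⟨i, by rw [hi, div_mul_cancel₀ _ hv0]⟩
  have hzpow : ∀ a b : ℕ, ζ ^ a = ζ ^ b ↔ (a : ZMod (p ^ n)) = b := fun a b => by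
    rw [ZMod.natCast_eq_natCast_iff', ← pow_mod_orderOf ζ a, ← pow_mod_orderOf ζ b,
      ← hζ.eq_orderOf]
    exact ⟨hζ.pow_inj (Nat.mod_lt _ (NeZero.pos _)) (Nat.mod_lt _ (NeZero.pos _)),
      fun e => by rw [e]⟩
  obtain ⟨σ₀, hσ₀, hmov⟩ := LocalRingP.exists_inertia_moves hp3 hA
    (hζ.pow (pow_pos hp.pos n) (show p ^ n = p ^ (n - 1) * p by
      rw [← pow_succ, Nat.sub_add_cancel (by omega)]))
  have hact : ∀ σ : GQ, ∃ a : ℕ, σ ζ = ζ ^ a := fun σ =>
    ⟨_, EigenRep.epsilon_spec σ hζ.pow_eq_one⟩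
  obtain ⟨a₀, ha₀⟩ := hact σ₀
  obtain ⟨i₀, hi₀⟩ := hexp σ₀ hσ₀
  have hunit : IsUnit ((a₀ : ZMod (p ^ n)) - 1) := by
    rcases Nat.eq_zero_or_pos a₀ with rfl | hpos
    · simp
    rw [← Nat.cast_one, ← Nat.cast_sub hpos, ZMod.isUnit_iff_coprime]
    refine Nat.Coprime.pow_right n ((hp.coprime_iff_not_dvd.mpr fun hd => hmov ?_).symm)
    obtain ⟨c, hc⟩ := hd
    have ha : a₀ = p * c + 1 := by omega
    rw [map_pow, ha₀, ← pow_mul, ha, add_mul, one_mul, pow_add, mul_assoc, mul_left_comm,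
      ← mul_assoc, mul_comm c, mul_right_comm, ← pow_succ', Nat.sub_add_cancel (show 1 ≤ n by omega),
      pow_mul, hζ.pow_eq_one, one_pow, one_mul]
  obtain ⟨b, hb⟩ : ∃ b : ℕ, ((a₀ : ZMod (p ^ n)) - 1) * b = -(i₀ : ZMod (p ^ n)) := by
    obtain ⟨w, hw⟩ := hunit
    refine ⟨(-(↑w⁻¹ : ZMod (p ^ n)) * i₀).val, ?_⟩
    rw [ZMod.natCast_zmod_val, ← hw, neg_mul, mul_neg, ← mul_assoc, Units.mul_inv, one_mul]
  have hfixed : ∀ σ ∈ A.inertiaSubgroupIn ℚ, σ (ζ ^ b * v) = ζ ^ b * v := by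
    intro τ hτ
    obtain ⟨a, ha⟩ := hact τ
    obtain ⟨i, hi⟩ := hexp τ hτ
    -- the commutator fixes `ζ`, hence `v`
    have hc : (τ * σ₀)⁻¹ * (σ₀ * τ) ∈ H := by
      refine Subgroup.mem_inf.mpr ⟨mul_mem (inv_mem (mul_mem hτ hσ₀)) (mul_mem hσ₀ hτ),
        MulAction.mem_stabilizer_iff.mpr ?_⟩
      rw [mul_smul, inv_smul_eq_iff]
      show σ₀ (τ ζ) = τ (σ₀ ζ)
      rw [ha, ha₀, map_pow, map_pow, ha, ha₀, ← pow_mul, ← pow_mul, mul_comm]
    have h1 := hyfix _ hc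
    rw [AlgEquiv.mul_apply] at h1
    replace h1 := congrArg (τ * σ₀) h1
    rw [← AlgEquiv.mul_apply, mul_inv_cancel, AlgEquiv.one_apply, AlgEquiv.mul_apply,
      AlgEquiv.mul_apply, hi, hi₀, map_mul, map_mul, map_pow, map_pow, ha₀, ha, hi, hi₀,
      ← mul_assoc, ← mul_assoc] at h1
    replace h1 := mul_right_cancel₀ hv0 h1
    rw [← pow_mul, ← pow_mul, ← pow_add, ← pow_add, hzpow] at h1
    push_cast at h1
    rw [map_mul, map_pow, ha, hi, ← mul_assoc, ← pow_mul, ← pow_add]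
    congr 1
    rw [hzpow]
    push_cast
    obtain ⟨w, hw⟩ := hunit
    refine sub_eq_zero.mp ((Units.mul_right_eq_zero w).mp ?_)
    rw [hw]
    linear_combination ((a : ZMod (p ^ n)) - 1) * hb + h1
  have hval : A.valuation (ζ ^ b * v) ^ p ^ n = A.valuation (p : Ω) ^ (p ^ (n - 1) : ℕ) := by
    rw [← map_pow, mul_pow, hv, div_pow, map_mul, map_div₀, ← pow_mul, mul_comm b, pow_mul,
      hζ.pow_eq_one, one_pow, map_one, one_mul, hyu.2.1, div_one, hπn, map_pow]
  obtain ⟨k, hk⟩ := FlatJ0.exists_valuation_eq_zpow_of_fixed hp hA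
    (mul_ne_zero (pow_ne_zero _ (hζ.ne_zero hN)) hv0) hfixed
  rw [hk, ← zpow_natCast (A.valuation (p : Ω) ^ k), ← zpow_mul, ← zpow_natCast] at hval
  have h3 := LocalRingP.zpow_valuation_inj hp hA hval
  have e : ((p ^ n : ℕ) : ℤ) = (p : ℤ) * ((p ^ (n - 1) : ℕ) : ℤ) := by
    rw [← Nat.cast_mul, ← pow_succ', Nat.sub_add_cancel (by omega)]
  rw [e, ← mul_assoc] at h3
  have hone : k * (p : ℤ) = 1 :=
    mul_right_cancel₀ (Int.natCast_ne_zero.mpr (pow_ne_zero _ hp.ne_zero)) (h3.trans (one_mul _).symm)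
  have := Int.natAbs_mul k p ▸ congrArg Int.natAbs hone
  simp only [Int.natAbs_natCast, Int.natAbs_one] at this
  have := Nat.eq_one_of_mul_eq_one_left this
  omega

end Exists

section Cocycle

variable [Fact p.Prime]

/-- A multiplicative cocycle of finite level on inertia has an eigenvector. -/
theorem exists_eigen {f : GQ → Ω} (hf0 : ∀ g ∈ A.inertiaSubgroupIn ℚ, f g ≠ 0)
    (hmul : ∀ g ∈ A.inertiaSubgroupIn ℚ, ∀ h ∈ A.inertiaSubgroupIn ℚ, f (g * h) = f g * g (f h))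
    (hfin : ∃ L : IntermediateField ℚ Ω, FiniteDimensional ℚ L ∧
      ∀ g : GQ, (∀ a ∈ L, g a = a) → f g = 1) :
    ∃ z : Ω, z ≠ 0 ∧ ∀ g ∈ A.inertiaSubgroupIn ℚ, g z = f g * z := by
  classical
  obtain ⟨L, hL, hLz⟩ := hfin
  obtain ⟨F, hLF, hF, hFg⟩ := LocalRingP.exists_galois_level L
  let R : GQ →* (F ≃ₐ[ℚ] F) := AlgEquiv.restrictNormalHom F
  have hR : ∀ (g : GQ) (x : F), ((R g x : F) : Ω) = g (x : Ω) :=
    fun g x => g.restrictNormal_commutes F x
  have hker : ∀ g, R g = 1 → f g = 1 := fun g hg => hLz g fun a ha => by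
    have := hR g ⟨a, hLF ha⟩
    rw [hg] at this
    exact this.symm
  let S : Subgroup (F ≃ₐ[ℚ] F) := (A.inertiaSubgroupIn ℚ).map R
  have : Fintype S := Fintype.ofFinite _
  choose s hs using fun γ : S => Subgroup.mem_map.mp γ.2
  have hfeq : ∀ a ∈ A.inertiaSubgroupIn ℚ, ∀ b ∈ A.inertiaSubgroupIn ℚ, R a = R b → f a = f b :=
    fun a ha b hb hab => by
      have h1 := hker (a⁻¹ * b) (by rw [map_mul, map_inv, hab, inv_mul_cancel])
      have h2 := hmul a ha _ (mul_mem (inv_mem ha) hb)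
      rw [mul_inv_cancel_left, h1, map_one, mul_one] at h2
      exact h2.symm
  let c : S → Ω := fun γ => f (s γ)
  let e : S → F →* Ω := fun γ =>
    ((F.val.toRingHom.comp ((γ : F ≃ₐ[ℚ] F) : F →+* F) : F →+* Ω) : F →* Ω)
  have he : Function.Injective e := fun a b hab => Subtype.ext (AlgEquiv.ext fun x =>
    Subtype.ext (DFunLike.congr_fun hab x))
  have hind : LinearIndependent Ω fun γ => (e γ : F → Ω) :=
    (linearIndependent_monoidHom F Ω).comp e he
  obtain ⟨w, hw⟩ : ∃ w : F, ∑ γ, c γ * e γ w ≠ 0 := by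
    by_contra hc
    push Not at hc
    exact hf0 _ (hs 1).1 (Fintype.linearIndependent_iff.mp hind c
      (funext fun w => by simpa using hc w) 1)
  refine ⟨(∑ γ, c γ * e γ w)⁻¹, inv_ne_zero hw, fun g hg => ?_⟩
  have key : f g * g (∑ γ, c γ * e γ w) = ∑ γ, c γ * e γ w := by
    let gS : S := ⟨R g, Subgroup.mem_map.mpr ⟨g, hg, rfl⟩⟩
    rw [map_sum, Finset.mul_sum]
    refine Fintype.sum_equiv (Equiv.mulLeft gS) _ _ fun γ => ?_
    show f g * g (c γ * e γ w) = c (gS * γ) * e (gS * γ) w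
    rw [map_mul, ← mul_assoc]
    congr 1
    · show f g * g (f (s γ)) = f (s (gS * γ))
      rw [← hmul g hg _ (hs γ).1]
      refine hfeq _ (mul_mem hg (hs γ).1) _ (hs _).1 ?_
      rw [map_mul, (hs γ).2, (hs (gS * γ)).2]
      rfl
    · exact (hR g _).symm
  have h2 : g (∑ γ, c γ * e γ w) = (∑ γ, c γ * e γ w) / f g := by
    rw [eq_div_iff (hf0 g hg), mul_comm]
    exact key
  rw [map_inv₀, h2, inv_div, div_eq_mul_inv]

end Cocycle

/-- An element of inertia seeing only the valuation: it fixes the `p`-power roots of inertia-fixed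
units and moves the `p`-th roots of `p`. -/
def IsKummerElement (p : ℕ) (P : ValuationSubring Ω) (s : GQ) : Prop :=
  s ∈ kummerKer P p ∧ ∀ π : Ω, π ^ p = (p : Ω) → s π ≠ π

lemma IsKummerElement.mem_inertia {s : GQ} (h : IsKummerElement p A s) :
    s ∈ A.inertiaSubgroupIn ℚ := h.1.1

lemma IsKummerElement.apply_root_of_unity (hp : p.Prime) {s : GQ} (h : IsKummerElement p A s)
    {μ : Ω} {n : ℕ} (hμ : μ ^ p ^ n = 1) : s μ = μ :=
  Engine.apply_root_of_unity hp h.1 hμ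

/-- Kummer elements exist. -/
theorem exists_kummerElement (p : ℕ) [Fact p.Prime] (hp : 2 < p) (P : ValuationSubring Ω)
    (hP : P.LiesOverPrime p) : ∃ s, IsKummerElement p P s := by
  have hpp : p.Prime := Fact.out
  obtain ⟨π, hπ⟩ := IsAlgClosed.exists_pow_nat_eq (p : Ω) hpp.pos
  obtain ⟨g, hg, hgπ⟩ := exists_kummerKer_moves (A := P) hp hP hπ
  refine ⟨g, hg, fun π' hπ' he => hgπ ?_⟩
  have hπ0 : π' ≠ 0 := fun e => Nat.cast_ne_zero.mpr hpp.ne_zero
    ((hπ'.symm.trans (by rw [e, zero_pow hpp.ne_zero])) : (p : Ω) = 0)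
  have h1 : g (π / π') = π / π' := Engine.apply_root_of_unity hpp hg (n := 1) (by
    rw [pow_one, div_pow, hπ, hπ', div_self (Nat.cast_ne_zero.mpr hpp.ne_zero)])
  rw [map_div₀, he, div_left_inj' hπ0] at h1
  exact h1

end Fermat.Agent.Engine
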