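import Fermat.Agent.Engine.Crys.Kummer
import Fermat.Agent.Engine.Top.AtP
import Fermat.Agent.DefRing.TestAlgebra

/-!
# The unit root kills the valuation part of an ordinary representation

For a representation on a finite test algebra, ordinary on inertia, with determinant the
cyclotomic character on the decomposition group, and a Kummer element `s`, we have
`(α ^ 2 - 1) (ρ s - 1) = 0` for the unit root `α`.
-/

set_option autoImplicit false

noncomputable section

open IsLocalRing Fermat.Agent.DefRing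
open scoped Pointwise

namespace Fermat.Agent.Engine

local notation "Ω" => AlgebraicClosure ℚ

variable {A : ValuationSubring Ω} {p : ℕ} [Fact p.Prime]

/-- Kummer theory: a scalar cocycle for the cyclotomic character on inertia is equivariant for the
decomposition group on the elements seeing only the valuation. -/
theorem kummer_equivariance (hA : A.LiesOverPrime p) {R : Type} [CommRing R] [Finite R] {n : ℕ}
    (hn : ((p : R)) ^ n = 0) (χ : GQ → R) (hχ : ∀ σ, χ σ = (EigenRep.epsilonNat p n σ : R))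
    (B : GQ → R)
    (hmul : ∀ σ ∈ A.inertiaSubgroupIn ℚ, ∀ τ ∈ A.inertiaSubgroupIn ℚ,
      B (σ * τ) = B σ + χ σ * B τ)
    (hfin : ∃ L : IntermediateField ℚ Ω, FiniteDimensional ℚ L ∧
      ∀ g : GQ, (∀ a ∈ L, g a = a) → B g = 0)
    {g φ : GQ} (hg : g ∈ kummerKer A p) (hφ : φ ∈ A.decompositionSubgroup ℚ) :
    B (φ * g * φ⁻¹) = χ φ * B g := by
  have hp : p.Prime := Fact.out
  by_contra hne
  obtain ⟨ψ, hψ⟩ := CommGroup.exists_apply_ne_one_of_hasEnoughRootsOfUnity (Multiplicative R) Ω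
    (a := Multiplicative.ofAdd (B (φ * g * φ⁻¹) - χ φ * B g))
    (fun e => hne (sub_eq_zero.mp (Multiplicative.ofAdd.injective (e.trans ofAdd_zero.symm))))
  set c : R → Ω := fun b => (ψ (Multiplicative.ofAdd b) : Ω) with hc
  have hcadd : ∀ a b, c (a + b) = c a * c b := fun a b => by
    simp only [hc, ofAdd_add, map_mul, Units.val_mul]
  have hcnat : ∀ (m : ℕ) b, c ((m : R) * b) = c b ^ m := fun m b => by
    simp only [hc, ← nsmul_eq_mul, ofAdd_nsmul, map_pow, Units.val_pow_eq_pow_val]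
  have hc0 : ∀ b, c b ≠ 0 := fun b => Units.ne_zero _
  have hcN : ∀ b, c b ^ p ^ n = 1 := fun b => by
    rw [← hcnat, Nat.cast_pow, hn, zero_mul]
    simp [hc]
  have hact : ∀ σ b, c (χ σ * b) = σ (c b) := fun σ b => by
    rw [hχ, hcnat, EigenRep.epsilon_spec σ (hcN b)]
  obtain ⟨z, hz0, hz⟩ := exists_eigen (A := A) (f := fun σ => c (B σ)) (fun σ _ => hc0 _)
    (fun σ hσ τ hτ => by rw [hmul σ hσ τ hτ, hcadd, hact])
    (hfin.imp fun L hL => ⟨hL.1, fun σ hσ => by simp [hc, hL.2 σ hσ]⟩)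
  obtain ⟨k, hk⟩ := FlatJ0.exists_valuation_eq_zpow_of_fixed hp hA (pow_ne_zero (p ^ n) hz0)
    fun σ hσ => by rw [map_pow, hz σ hσ, mul_pow, hcN, one_mul]
  obtain ⟨π, hπ⟩ := IsAlgClosed.exists_pow_nat_eq (p : Ω) (pow_pos hp.pos n)
  have hp0 : (p : Ω) ≠ 0 := Nat.cast_ne_zero.mpr hp.ne_zero
  have hπ0 : π ≠ 0 := fun e => hp0 (by rw [← hπ, e, zero_pow (pow_pos hp.pos n).ne'])
  have hy : IsFixedUnit A ((z / π ^ k) ^ p ^ n) := by
    have e : (z / π ^ k) ^ p ^ n = z ^ p ^ n / (p : Ω) ^ k := by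
      rw [div_pow, ← zpow_natCast (π ^ k), ← zpow_mul, mul_comm, zpow_mul, zpow_natCast, hπ]
    rw [e]
    refine ⟨?_, fun σ hσ => by
      rw [map_div₀, map_zpow₀, map_natCast, map_pow, hz σ hσ, mul_pow, hcN, one_mul]⟩
    rw [map_div₀, map_zpow₀, hk,
      div_self (zpow_ne_zero _ ((Valuation.ne_zero_iff _).mpr hp0))]
  -- on `kummerKer` the cocycle is a power of the one of `π`
  have hval : ∀ h ∈ kummerKer A p, c (B h) = (h π / π) ^ k := fun h hh => by
    have h1 := hh.2 _ n hy
    rw [map_div₀, map_zpow₀, hz h (mem_inertia_of_mem_kummerKer hh)] at h1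
    have hhπ : h π ≠ 0 := by simpa using hπ0
    rw [div_zpow]
    field_simp [zpow_ne_zero k hπ0, zpow_ne_zero k hhπ] at h1 ⊢
    linear_combination h1
  have hμ : (φ⁻¹ π / π) ^ p ^ n = 1 := by
    rw [div_pow, ← map_pow, hπ, map_natCast, div_self hp0]
  have hgμ := apply_root_of_unity hp hg hμ
  have hconj : (φ * g * φ⁻¹) π / π = φ (g π / π) := by
    have e : g (φ⁻¹ π) = g π * (φ⁻¹ π / π) := by
      rw [← hgμ, ← map_mul, mul_div_cancel₀ _ hπ0]
    have hφπ : φ π ≠ 0 := by simpa using hπ0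
    rw [AlgEquiv.mul_apply, AlgEquiv.mul_apply, e, map_mul, map_div₀, map_div₀,
      show φ (φ⁻¹ π) = π from φ.apply_symm_apply π]
    field_simp
  have hkey : c (B (φ * g * φ⁻¹)) = c (χ φ * B g) := by
    rw [hact, hval g hg, hval _ (conj_mem_kummerKer hg hφ), hconj, map_zpow₀]
  refine hψ (Units.ext ?_)
  have h2 := hcadd (B (φ * g * φ⁻¹) - χ φ * B g) (χ φ * B g)
  rw [sub_add_cancel, hkey] at h2
  exact mul_right_cancel₀ (hc0 (χ φ * B g)) (h2.symm.trans (one_mul _).symm)

section Idempotent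

variable {R : Type} [CommRing R]

/-- A corner of a matrix cut out by an idempotent of zero determinant is a multiple of it. -/
lemma mul_mul_eq_trace_smul {E : Matrix (Fin 2) (Fin 2) R} (hE : E.det = 0)
    (X : Matrix (Fin 2) (Fin 2) R) : E * X * E = (E * X).trace • E := by
  rw [Matrix.det_fin_two] at hE
  ext i j
  fin_cases i <;> fin_cases j <;>
    simp [Matrix.mul_apply, Fin.sum_univ_two, Matrix.trace_fin_two]
  · linear_combination -(X 1 1) * hE
  · linear_combination (X 0 1) * hE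
  · linear_combination (X 1 0) * hE
  · linear_combination -(X 0 0) * hE

/-- The Cayley-Hamilton identity in rank two. -/
lemma cayley_hamilton_two (X : Matrix (Fin 2) (Fin 2) R) :
    X * X - X.trace • X + X.det • 1 = 0 := by
  ext i j
  fin_cases i <;> fin_cases j <;>
    simp [Matrix.mul_apply, Fin.sum_univ_two, Matrix.trace_fin_two, Matrix.det_fin_two] <;> ring

/-- An idempotent of trace one has zero determinant. -/
lemma det_eq_zero_of_idempotent {E : Matrix (Fin 2) (Fin 2) R} (hE : E * E = E)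
    (ht : E.trace = 1) : E.det = 0 := by
  have h := congrFun (congrFun (cayley_hamilton_two E) 0) 0
  rw [hE, ht] at h
  simpa using h

end Idempotent

variable {O : Type} [CommRing O] [IsLocalRing O]

/-- **The unit root kills the valuation part.** -/
theorem rootDefect_smul_sub_one [Finite (ResidueField O)] (hpO : (p : O) ∈ maximalIdeal O)
    {χ : GQ → O} (hχ : Top.IsPadicCyclotomic p χ) {P : ValuationSubring Ω}
    (hP : P.LiesOverPrime p) {A : Type} [CommRing A] [IsLocalRing A] [Algebra O A]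
    (hA : GaloisRep.IsArtinianTestAlgebra O A) {N : MRep A} (hN : IsCont N)
    (hdet : ∀ σ ∈ P.decompositionSubgroup ℚ, (N σ).det = algebraMap O A (χ σ))
    (hord : Top.IsOrdinaryOn P χ N) {σ₀ φ s : GQ} (hσ₀ : σ₀ ∈ P.inertiaSubgroupIn ℚ)
    (hunit : IsUnit (χ σ₀ - 1)) (hφ : φ ∈ P.decompositionSubgroup ℚ)
    (hs : s ∈ kummerKer P p) :
    ((Top.unitRoot χ σ₀ φ N) ^ 2 - 1) • (N s - 1) = 0 := by
  have hp : p.Prime := Fact.out
  have := hA.isArtinian
  have : Finite A := DefRing.finite_of_isArtinianTestAlgebra hA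
  obtain ⟨n, hn⟩ := DefRing.isNilpotent_maximalIdeal_of_isArtinianRing (A := A)
  have hn' : ((p : A)) ^ n = 0 := by
    have : (p : A) ^ n ∈ maximalIdeal A ^ n := Ideal.pow_mem_pow
      ((mem_maximalIdeal _).mpr fun hu => (mem_maximalIdeal _).mp hpO
        (hA.isLocalHom.map_nonunit _ (by rwa [map_natCast]))) n
    rwa [hn, Ideal.zero_eq_bot, Ideal.mem_bot] at this
  set x : GQ → A := fun σ => algebraMap O A (χ σ) with hx
  have hxe : ∀ σ, x σ = (EigenRep.epsilonNat p n σ : A) := fun σ => by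
    obtain ⟨y, hy⟩ := Ideal.mem_span_singleton'.mp
      (hχ n σ _ fun μ hμ => EigenRep.epsilon_spec σ hμ)
    rw [hx, ← sub_eq_zero, ← map_natCast (algebraMap O A), ← map_sub, ← hy, map_mul, map_pow,
      map_natCast, hn', mul_zero]
  have hxs : x s = 1 := by
    obtain ⟨y, hy⟩ := Ideal.mem_span_singleton'.mp
      (hχ n s 1 fun μ hμ => by rw [apply_root_of_unity hp hs hμ, pow_one])
    rw [hx, ← sub_eq_zero, ← map_one (algebraMap O A), ← map_sub, ← Nat.cast_one, ← hy, map_mul,
      map_pow, map_natCast, hn', mul_zero]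
  -- the cocycle `N σ - 1` on inertia is equivariant at `s`
  have hconjI : (N (φ * s * φ⁻¹) - 1) = x φ • (N s - 1) := by
    ext a b
    refine kummer_equivariance hP hn' x hxe (fun σ => (N σ - 1) a b) (fun σ hσ τ hτ => ?_) ?_
      hs hφ
    · have h : ((N σ - x σ • 1) * (N τ - 1)) a b = 0 :=
        congrFun (congrFun (hord σ hσ τ hτ) a) b
      have e : N (σ * τ) - 1 = (N σ - 1) + x σ • (N τ - 1) +
          (N σ - x σ • 1) * (N τ - 1) := by
        rw [map_mul, Matrix.sub_mul, Matrix.smul_mul, one_mul, Matrix.mul_sub, mul_one]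
        abel
      rw [e]
      simp only [Matrix.add_apply, Matrix.smul_apply, smul_eq_mul, h, add_zero]
    · obtain ⟨L, hL, hLn⟩ := hN n
      refine ⟨L, hL, fun σ hσ => ?_⟩
      have := hLn σ hσ a b
      rwa [hn, Ideal.zero_eq_bot, Ideal.mem_bot] at this
  -- the idempotent of the quotient line
  set w := x σ₀ with hw
  set i := algebraMap O A (Ring.inverse (χ σ₀ - 1)) with hi
  have hiw : i * (w - 1) = 1 := by
    rw [hi, hw, hx, ← map_one (algebraMap O A), ← map_sub, ← map_mul,
      Ring.inverse_mul_cancel _ hunit]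
  set E : Matrix (Fin 2) (Fin 2) A := i • (w • 1 - N σ₀) with hEdef
  have hE1 : 1 - E = i • (N σ₀ - 1) := by
    rw [hEdef, smul_sub, smul_sub, smul_smul]
    have : (i * w) • (1 : Matrix (Fin 2) (Fin 2) A) = 1 + i • 1 := by
      rw [show i * w = 1 + i by linear_combination hiw, add_smul, one_smul]
    rw [this]
    abel
  have hEB : ∀ τ ∈ P.inertiaSubgroupIn ℚ, E * (N τ - 1) = 0 := fun τ hτ => by
    rw [hEdef, Matrix.smul_mul, ← neg_sub (N σ₀), Matrix.neg_mul, hord σ₀ hσ₀ τ hτ, neg_zero,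
      smul_zero]
  have hEE : E * E = E := by
    have : E * (1 - E) = 0 := by rw [hE1, Matrix.mul_smul, hEB σ₀ hσ₀, smul_zero]
    rwa [Matrix.mul_sub, mul_one, sub_eq_zero, eq_comm] at this
  have hdet₀ : (N σ₀).det = w := hdet σ₀ (Top.mem_decomposition_of_mem_inertia hσ₀)
  have htr₀ : (N σ₀).trace = w + 1 := by
    have h1 := cayley_hamilton_two (N σ₀)
    rw [hdet₀] at h1
    have h2 := hord σ₀ hσ₀ σ₀ hσ₀
    change (N σ₀ - w • 1) * (N σ₀ - 1) = 0 at h2
    have h3 : ((N σ₀).trace - (w + 1)) • N σ₀ = 0 := by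
      calc ((N σ₀).trace - (w + 1)) • N σ₀
          = (N σ₀ - w • 1) * (N σ₀ - 1) -
            (N σ₀ * N σ₀ - (N σ₀).trace • N σ₀ + w • 1) := by
            rw [Matrix.sub_mul, Matrix.smul_mul, one_mul, Matrix.mul_sub, mul_one, smul_sub,
              sub_smul, add_smul, one_smul]
            abel
        _ = 0 := by rw [h1, h2, sub_zero]
    have h4 := congrArg (· * N σ₀⁻¹) h3
    simp only [Matrix.smul_mul, ← map_mul, mul_inv_cancel, map_one, zero_mul] at h4
    have h5 := congrFun (congrFun h4 0) 0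
    simpa [sub_eq_zero] using h5
  have hEtr : E.trace = 1 := by
    rw [hEdef, Matrix.trace_smul, Matrix.trace_sub, Matrix.trace_smul, Matrix.trace_one, htr₀,
      Fintype.card_fin, smul_eq_mul, smul_eq_mul]
    push_cast
    linear_combination hiw
  have hEdet : E.det = 0 := det_eq_zero_of_idempotent hEE hEtr
  have hFtr : (1 - E).trace = 1 := by
    rw [Matrix.trace_sub, Matrix.trace_one, hEtr, Fintype.card_fin]; push_cast; ring
  have hFF : (1 - E) * (1 - E) = 1 - E := by
    rw [Matrix.sub_mul, one_mul, Matrix.mul_sub, mul_one, hEE, sub_self, sub_zero]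
  have hFdet : (1 - E).det = 0 := det_eq_zero_of_idempotent hFF hFtr
  have hEφF : E * N φ * (1 - E) = 0 := by
    have e : N φ * (N σ₀ - 1) = (N (φ * σ₀ * φ⁻¹) - 1) * N φ := by
      rw [Matrix.mul_sub, Matrix.sub_mul, mul_one, one_mul, ← map_mul, ← map_mul,
        inv_mul_cancel_right]
    rw [hE1, Matrix.mul_smul, mul_assoc, e, ← mul_assoc, hEB _ (conj_mem_inertia hφ hσ₀),
      zero_mul, smul_zero]
  set α := (E * N φ).trace with hα
  set β := ((1 - E) * N φ).trace with hβ
  have hEφ : E * N φ = α • E := by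
    rw [Matrix.mul_sub, mul_one, sub_eq_zero] at hEφF
    rw [hEφF, mul_mul_eq_trace_smul hEdet]
  have hφF : N φ * (1 - E) = β • (1 - E) := by
    rw [← mul_mul_eq_trace_smul hFdet, Matrix.sub_mul, one_mul, Matrix.sub_mul, hEφF, sub_zero]
  -- the determinant at `φ`
  have hdetφ : x φ = α * β := by
    have h1 := congrArg (fun X => (E * X).trace) (cayley_hamilton_two (N φ))
    have h2 : E * (N φ * N φ) = (α * α) • E := by
      rw [← mul_assoc, hEφ, Matrix.smul_mul, hEφ, smul_smul]
    have h3 : (N φ).trace = α + β := by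
      rw [hα, hβ, ← Matrix.trace_add, ← Matrix.add_mul, add_sub_cancel, one_mul]
    simp only [Matrix.mul_add, Matrix.mul_sub, h2, Matrix.mul_smul, mul_one, mul_zero, hEφ,
      Matrix.trace_add, Matrix.trace_sub, Matrix.trace_smul, Matrix.trace_zero, hEtr,
      smul_eq_mul, h3, hdet φ hφ] at h1
    linear_combination h1
  -- the value at `s`
  set B := N s - 1 with hB
  have hsI := mem_inertia_of_mem_kummerKer hs
  have hEBs : E * B = 0 := hEB s hsI
  have hBF : B * (1 - E) = 0 := by
    have h := hord s hsI σ₀ hσ₀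
    change (N s - x s • 1) * (N σ₀ - 1) = 0 at h
    rw [hxs, one_smul] at h
    rw [hE1, Matrix.mul_smul, hB, h, smul_zero]
  have hFB : (1 - E) * B = B := by rw [Matrix.sub_mul, one_mul, hEBs, sub_zero]
  have hBE : B * E = B := by
    rw [Matrix.mul_sub, mul_one, sub_eq_zero] at hBF
    exact hBF.symm
  have hleft : N φ * B = β • B := by rw [← hFB, ← mul_assoc, hφF, Matrix.smul_mul, hFB]
  have hright : B * N φ = α • B := by rw [← hBE, mul_assoc, hEφ, Matrix.mul_smul, hBE]
  have hkey : (β * (α ^ 2 - 1)) • B = 0 := by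
    have h : (N (φ * s * φ⁻¹) - 1) * N φ = N φ * B := by
      rw [hB, Matrix.sub_mul, Matrix.mul_sub, one_mul, mul_one, ← map_mul, ← map_mul,
        inv_mul_cancel_right]
    rw [hconjI, Matrix.smul_mul, hleft, hright, smul_smul, hdetφ] at h
    rw [show β * (α ^ 2 - 1) = α * β * α - β by ring, sub_smul, h, sub_self]
  have hroot : Top.unitRoot χ σ₀ φ N = α := by
    rw [hα, hEdef, Matrix.smul_mul, Matrix.sub_mul, Matrix.smul_mul, one_mul, Matrix.trace_smul,
      Matrix.trace_sub, Matrix.trace_smul, ← map_mul, smul_eq_mul, smul_eq_mul]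
    rfl
  have hβu : IsUnit β := by
    have : IsUnit (x φ) := by
      rw [show x φ = _ from (hdet φ hφ).symm]
      exact IsUnit.map (Matrix.detMonoidHom) ((Group.isUnit φ).map N)
    rw [hdetφ] at this
    exact isUnit_of_mul_isUnit_right this
  rw [hroot]
  obtain ⟨u, hu⟩ := hβu
  have h := congrArg (fun X => (↑u⁻¹ : A) • X) hkey
  simp only [smul_smul, smul_zero] at h
  rwa [← hu, ← mul_assoc, Units.inv_mul, one_mul] at h

end Fermat.Agent.Engine
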