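import Fermat.Agent.Engine.Crys.Kummer
import Fermat.Agent.Engine.Galois

/-!
# The first order bound when the unit root is fixed at a square root of one

If the quotient character of an ordinary residual representation squares to `1`, the first order
ordinary lifts with fixed unit root and killing a Kummer element form a space of dimension at most
`3`: the valuation part of the extension class is absent.
-/

set_option autoImplicit false

noncomputable section

open Fermat.Agent.DefRing Fermat.Agent.LocalRingP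

namespace Fermat.Agent.Engine

local notation "Ω" => AlgebraicClosure ℚ

variable {A : ValuationSubring Ω} {k : Type} [Field k]

/-- Functions killing `s` with no first order variation of the unit root. -/
def rootSpace (ρ : A.decompositionSubgroup ℚ →* Matrix (Fin 2) (Fin 2) k) (w : k)
    (σ₀ φ s : A.decompositionSubgroup ℚ) :
    Submodule k (A.decompositionSubgroup ℚ → Matrix (Fin 2) (Fin 2) k) where
  carrier := {c | c s = 0 ∧
    w * (c φ * ρ φ).trace - (c (σ₀ * φ) * ρ (σ₀ * φ)).trace = 0}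
  zero_mem' := ⟨rfl, by simp⟩
  add_mem' := by
    rintro a b ⟨ha, ha'⟩ ⟨hb, hb'⟩
    refine ⟨by simp [ha, hb], ?_⟩
    simp only [Pi.add_apply, Matrix.add_mul, Matrix.trace_add]
    linear_combination ha' + hb'
  smul_mem' := by
    rintro t a ⟨ha, ha'⟩
    refine ⟨by simp [ha], ?_⟩
    simp only [Pi.smul_apply, Matrix.smul_mul, Matrix.trace_smul, smul_eq_mul]
    linear_combination t * ha'

variable {p : ℕ} [Fact p.Prime] [Algebra (ZMod p) k]
  {ρ : A.decompositionSubgroup ℚ →* Matrix (Fin 2) (Fin 2) k}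
  {ω : A.decompositionSubgroup ℚ →* ZMod p} {σ₀ φ : A.decompositionSubgroup ℚ}
  {S : Set (A.decompositionSubgroup ℚ)} {γ χ' : A.decompositionSubgroup ℚ → k}

/-- A cocycle with the first two coordinates zero has no lower left entry. -/
theorem lower_left_eq_zero (h : Adapted ρ ω σ₀) (hσ₀S : σ₀ ∈ S)
    (hI : ∀ g : A.decompositionSubgroup ℚ, (g : GQ) ∈ A.inertiaSubgroupIn ℚ → g ∈ S)
    (hγ : γ σ₀ = 1) (hχ' : χ' σ₀ = algebraMap (ZMod p) k (ω σ₀))
    {c : A.decompositionSubgroup ℚ → Matrix (Fin 2) (Fin 2) k} (hc : c ∈ condSpace ρ S γ χ')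
    (h01 : c σ₀ 0 1 = 0) (h10 : c σ₀ 1 0 = 0) : c σ₀ = 0 ∧ ∀ g, c g 1 0 = 0 := by
  obtain ⟨hmul, htr, -, heq⟩ := hc
  set w := algebraMap (ZMod p) k (ω σ₀) with hw
  have hw0 : w ≠ 0 := fun e0 => by
    have := h.inv00 σ₀
    rw [h.diag] at this
    rw [hw] at e0
    simp [e0] at this
  have hw1 : w ≠ 1 := fun e1 =>
    h.ne ((algebraMap (ZMod p) k).injective (e1.trans (map_one _).symm))
  have hc0 : c σ₀ = 0 := by
    have e1 := congrFun (congrFun (heq σ₀ hσ₀S σ₀ hσ₀S) 0) 0
    simp [condEq, h.diag, hγ, hχ', Matrix.mul_apply, Fin.sum_univ_two, h01] at e1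
    have e2 : c σ₀ 0 0 = 0 := by
      refine (mul_eq_zero.mp (?_ : c σ₀ 0 0 * (w * (w - 1)) = 0)).resolve_right
        (mul_ne_zero hw0 (sub_ne_zero.mpr hw1))
      rw [hw] at e1 ⊢
      linear_combination e1
    ext i j
    fin_cases i <;> fin_cases j <;> simp [e2, h01, h10]
    simpa [Matrix.trace, Fin.sum_univ_two, e2] using htr σ₀
  refine ⟨hc0, fun g => ?_⟩
  have hτ := LocalRingP.conj_mem_inertiaSubgroupIn (g := g) h.mem
  set τ := g * σ₀ * g⁻¹ with hτdef
  have hrow : c τ 1 0 = 0 := by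
    have e1 := heq σ₀ hσ₀S τ (hI τ hτ)
    rw [condEq, hc0, zero_mul, zero_mul, zero_add, hχ', h.diag] at e1
    have e2 : (!![w, 0; 0, 1] - w • (1 : Matrix (Fin 2) (Fin 2) k)) * c τ = 0 := by
      have := congrArg (fun M => M * ρ τ⁻¹) e1
      simpa only [zero_mul, mul_assoc, LocalRingP.rho_mul_inv, mul_one] using this
    simpa [Matrix.mul_apply, Fin.sum_univ_two, sub_eq_zero, Ne.symm hw1] using
      congrFun (congrFun e2 1) 0
  have e1 : c (g * σ₀) = c g := by rw [hmul, hc0, mul_zero, zero_mul, add_zero]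
  rw [show g * σ₀ = τ * g by rw [hτdef, inv_mul_cancel_right], hmul] at e1
  have e3 := congrFun (congrFun e1 1) 0
  have hu := h.unit τ hτ
  have hωτ : ω τ = ω σ₀ := by
    rw [hτdef, map_mul, map_mul, mul_comm (ω g), mul_assoc, ← map_mul, mul_inv_cancel, map_one,
      mul_one]
  have h00 : ρ τ 0 0 = w := by
    have := h.det τ
    rwa [hu, mul_one, hωτ] at this
  have hinv : ρ τ⁻¹ 0 0 = w⁻¹ := eq_inv_of_mul_eq_one_left (by
    rw [mul_comm, ← h00]; exact h.inv00 τ)
  simp [Matrix.mul_apply, Fin.sum_univ_two, h.tri, hrow, hu, hinv] at e3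
  by_contra hne
  exact hw1 (inv_eq_one.mp (mul_right_eq_self₀.mp e3 |>.resolve_right hne))

variable {ζ : Ω}

/-- The bound in an adapted basis. -/
theorem finrank_rootSpace_le (hp3 : 3 ≤ p) (hA : A.LiesOverPrime p) (hζ : IsPrimitiveRoot ζ p)
    (hω : ∀ g : A.decompositionSubgroup ℚ, (g : GQ) ζ = ζ ^ (ω g).val)
    (h : Adapted ρ ω σ₀) (hφ : A.IsFrobeniusAt (φ : GQ) p) (hσ₀S : σ₀ ∈ S)
    (hI : ∀ g : A.decompositionSubgroup ℚ, (g : GQ) ∈ A.inertiaSubgroupIn ℚ → g ∈ S)
    (hγ : γ σ₀ = 1) (hχ' : χ' σ₀ = algebraMap (ZMod p) k (ω σ₀))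
    (s : A.decompositionSubgroup ℚ)
    (hb : ∃ b ∈ twistedSpace (fun g => algebraMap (ZMod p) k (ω g) * h.twist g) σ₀, b s ≠ 0) :
    FiniteDimensional k
      (condSpace ρ S γ χ' ⊓ rootSpace ρ (algebraMap (ZMod p) k (ω σ₀)) σ₀ φ s :
        Submodule k (A.decompositionSubgroup ℚ → Matrix (Fin 2) (Fin 2) k)) ∧
      Module.finrank k
        (condSpace ρ S γ χ' ⊓ rootSpace ρ (algebraMap (ZMod p) k (ω σ₀)) σ₀ φ s :
          Submodule k (A.decompositionSubgroup ℚ → Matrix (Fin 2) (Fin 2) k)) ≤ 3 := by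
  classical
  obtain ⟨hTfin, hT2, -⟩ := finrank_twistedSpace_le hp3 hA hζ ω hω h.twist h.twist_level
    h.twist_inertia φ hφ σ₀ h.mem h.ne
  set T := twistedSpace (fun g => algebraMap (ZMod p) k (ω g) * h.twist g) σ₀ with hT
  set T' := T ⊓ LinearMap.ker (LinearMap.proj (R := k)
    (φ := fun _ : A.decompositionSubgroup ℚ => k) s) with hT'
  have hlt : T' < T := by
    refine lt_of_le_of_ne inf_le_left fun e => ?_
    obtain ⟨b, hb, hbs⟩ := hb
    rw [← e] at hb
    exact hbs hb.2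
  have : FiniteDimensional k T' := Submodule.finiteDimensional_of_le inf_le_left
  have hT1 : Module.finrank k T' ≤ 1 := by
    have := Submodule.finrank_lt_finrank_of_lt hlt
    omega
  set w := algebraMap (ZMod p) k (ω σ₀) with hw
  have hw1 : w ≠ 1 := fun e1 =>
    h.ne ((algebraMap (ZMod p) k).injective (e1.trans (map_one _).symm))
  set V : Submodule k (A.decompositionSubgroup ℚ → Matrix (Fin 2) (Fin 2) k) :=
    condSpace ρ S γ χ' ⊓ rootSpace ρ w σ₀ φ s with hV
  let f : V →ₗ[k] (Fin 2 → k) :=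
    { toFun := fun c => ![(c : A.decompositionSubgroup ℚ → Matrix (Fin 2) (Fin 2) k) σ₀ 0 1,
        (c : A.decompositionSubgroup ℚ → Matrix (Fin 2) (Fin 2) k) σ₀ 1 0]
      map_add' := fun c c' => by funext i; fin_cases i <;> simp
      map_smul' := fun t c => by funext i; fin_cases i <;> simp }
  have hker : ∀ c : LinearMap.ker f,
      (∀ g, ((c : V) : A.decompositionSubgroup ℚ → Matrix (Fin 2) (Fin 2) k) g 0 0 = 0 ∧
        ((c : V) : A.decompositionSubgroup ℚ → Matrix (Fin 2) (Fin 2) k) g 1 0 = 0 ∧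
        ((c : V) : A.decompositionSubgroup ℚ → Matrix (Fin 2) (Fin 2) k) g 1 1 = 0) ∧
      (fun g => ((c : V) : A.decompositionSubgroup ℚ → Matrix (Fin 2) (Fin 2) k) g 0 1) ∈ T' := by
    rintro ⟨⟨c, hc, hcs, hroot⟩, hc0⟩
    have h01 : c σ₀ 0 1 = 0 := by simpa [f] using congrFun hc0 0
    have h10 : c σ₀ 1 0 = 0 := by simpa [f] using congrFun hc0 1
    obtain ⟨hz, hlow⟩ := lower_left_eq_zero h hσ₀S hI hγ hχ' hc h01 h10
    have hmul := hc.1
    have hφ11 : c φ 1 1 = 0 := by
      have e : c (σ₀ * φ) * ρ (σ₀ * φ) = ρ σ₀ * (c φ * ρ φ) := by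
        rw [hmul, hz, zero_add, map_mul, mul_assoc (ρ σ₀ * c φ), ← mul_assoc (ρ σ₀⁻¹),
          LocalRingP.rho_inv_mul, one_mul, mul_assoc]
      rw [e, h.diag, Matrix.trace_fin_two, Matrix.trace_fin_two] at hroot
      simp [Matrix.mul_apply, Fin.sum_univ_two, hlow, ← hw] at hroot
      have h1 : c φ 1 1 * ((w - 1) * ρ φ 1 1) = 0 := by linear_combination hroot
      refine (mul_eq_zero.mp h1).resolve_right (mul_ne_zero (sub_ne_zero.mpr hw1) fun e0 => ?_)
      simpa [e0] using h.inv11 φ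
    have hφ00 : c φ 0 0 = 0 := by
      simpa [Matrix.trace, Fin.sum_univ_two, hφ11] using hc.2.1 φ
    have hco : coords (1 : k) σ₀ φ c = 0 := by
      funext i
      fin_cases i <;> simp [coords, h01, h10, hφ00]
    obtain ⟨-, hent⟩ := entries_of_coords_eq_zero hA h hφ hσ₀S hI hγ hχ' c hc
      (Or.inl one_ne_zero) hco
    refine ⟨hent, ⟨fun g g' => ?_, hc.2.2.1.imp fun L hL => ⟨hL.1, fun g hg => ?_⟩, h01⟩, ?_⟩
    · show c (g * g') 0 1 = c g 0 1 + algebraMap (ZMod p) k (ω g) * ρ g⁻¹ 1 1 ^ 2 * c g' 0 1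
      rw [hmul, Matrix.add_apply, ← h.det g]
      have := h.inv11 g
      simp [Matrix.mul_apply, Fin.sum_univ_two, hent g']
      linear_combination (-(ρ g 0 0) * c g' 0 1 * ρ g⁻¹ 1 1) * this
    · show c g 0 1 = 0
      rw [hL.2 g hg]; rfl
    · show c s 0 1 = 0
      rw [hcs]; rfl
  let ψ : LinearMap.ker f →ₗ[k] T' :=
    { toFun := fun c => ⟨_, (hker c).2⟩
      map_add' := fun _ _ => rfl
      map_smul' := fun _ _ => rfl }
  have hψ : Function.Injective ψ := by
    intro c c' hcc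
    refine Subtype.ext (Subtype.ext (funext fun g => ?_))
    have h01 := congrFun (congrArg Subtype.val hcc) g
    obtain ⟨a, b, d⟩ := (hker c).1 g
    obtain ⟨a', b', d'⟩ := (hker c').1 g
    ext i j
    fin_cases i <;> fin_cases j
    exacts [a.trans a'.symm, h01, b.trans b'.symm, d.trans d'.symm]
  have hKfin : Module.Finite k (LinearMap.ker f) := Module.Finite.of_injective ψ hψ
  have hQfin : Module.Finite k (V ⧸ LinearMap.ker f) :=
    Module.Finite.equiv f.quotKerEquivRange.symm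
  have hfin : FiniteDimensional k V := Module.Finite.of_submodule_quotient (LinearMap.ker f)
  have hsum := LinearMap.finrank_range_add_finrank_ker f
  have hK := LinearMap.finrank_le_finrank_of_injective hψ
  have hR : Module.finrank k (LinearMap.range f) ≤ 2 := (Submodule.finrank_le _).trans (by simp)
  exact ⟨hfin, by omega⟩

/-- The Kummer cocycle of a root of `p` is a twisted cocycle not vanishing on Kummer elements. -/
theorem exists_twisted_kummer (hζ : IsPrimitiveRoot ζ p)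
    (hω : ∀ g : A.decompositionSubgroup ℚ, (g : GQ) ζ = ζ ^ (ω g).val)
    (t : A.decompositionSubgroup ℚ →* k) (ht : ∀ g, t g = 1) (hσ₀ : ω σ₀ ≠ 1)
    (s : A.decompositionSubgroup ℚ) (hs : IsKummerElement p A (s : GQ)) :
    ∃ b ∈ twistedSpace (fun g => algebraMap (ZMod p) k (ω g) * t g) σ₀, b s ≠ 0 := by
  have hp : p.Prime := Fact.out
  have : NeZero p := ⟨hp.ne_zero⟩
  have hp0 : (p : Ω) ≠ 0 := Nat.cast_ne_zero.mpr hp.ne_zero
  set e : AddChar (ZMod p) Ω := AddChar.zmodChar p hζ.pow_eq_one with he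
  have heap : ∀ x : ZMod p, e x = ζ ^ x.val := fun x => AddChar.zmodChar_apply _ x
  have hinj : Function.Injective e := fun x y hxy => ZMod.val_injective p
    (hζ.pow_inj x.val_lt y.val_lt (by rwa [heap, heap] at hxy))
  have hge : ∀ (g : A.decompositionSubgroup ℚ) (x : ZMod p), (g : GQ) (e x) = e (ω g * x) :=
    fun g x => by
      rw [heap x, map_pow, hω, ← heap, ← AddChar.map_nsmul_eq_pow, nsmul_eq_mul,
        ZMod.natCast_rightInverse x, mul_comm]
  obtain ⟨π₀, hπ₀⟩ := IsAlgClosed.exists_pow_nat_eq (p : Ω) hp.pos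
  have hpow : ∀ π : Ω, π ^ p = (p : Ω) → ∀ g : GQ, ∃ x : ZMod p, g π = e x * π := fun π hπ g => by
    have hπ0 : π ≠ 0 := fun e0 => hp0 (by rw [← hπ, e0, zero_pow hp.ne_zero])
    obtain ⟨i, hi, hie⟩ := hζ.eq_pow_of_pow_eq_one (show (g π / π) ^ p = 1 by
      rw [div_pow, ← map_pow, hπ, map_natCast, div_self hp0])
    exact ⟨i, by rw [heap, ZMod.val_natCast_of_lt hi, hie, div_mul_cancel₀ _ hπ0]⟩
  -- shift the root so that `σ₀` fixes it
  obtain ⟨i, hi⟩ := hpow π₀ hπ₀ σ₀
  set π := e (-i / (ω σ₀ - 1)) * π₀ with hπdef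
  have hπ : π ^ p = (p : Ω) := by
    rw [hπdef, mul_pow, hπ₀, heap, ← pow_mul, mul_comm (ZMod.val _), pow_mul, hζ.pow_eq_one,
      one_pow, one_mul]
  have hσπ : (σ₀ : GQ) π = π := by
    rw [hπdef, map_mul, hge, hi, ← mul_assoc, ← AddChar.map_add_eq_mul]
    congr 2
    field_simp [sub_ne_zero.mpr hσ₀]
    ring
  have hπ0 : π ≠ 0 := fun e0 => hp0 (by rw [← hπ, e0, zero_pow hp.ne_zero])
  choose β hβ using fun g : A.decompositionSubgroup ℚ => hpow π hπ g
  have hzero : ∀ g : A.decompositionSubgroup ℚ, (g : GQ) π = π → β g = 0 := fun g hg =>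
    hinj (mul_right_cancel₀ hπ0 ((hβ g).symm.trans (hg.trans (by
      rw [AddChar.map_zero_eq_one, one_mul]))))
  refine ⟨fun g => algebraMap (ZMod p) k (β g), ⟨fun g h => ?_, ?_, ?_⟩, fun hbs => ?_⟩
  · show algebraMap (ZMod p) k (β (g * h)) =
      algebraMap (ZMod p) k (β g) + algebraMap (ZMod p) k (ω g) * t g * algebraMap (ZMod p) k (β h)
    rw [ht, mul_one, ← map_mul, ← map_add]
    refine congrArg _ (hinj (mul_right_cancel₀ hπ0 ?_))
    rw [← hβ (g * h), Subgroup.coe_mul, AlgEquiv.mul_apply, hβ h, map_mul, hge, hβ g, ← mul_assoc,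
      ← AddChar.map_add_eq_mul, add_comm]
  · refine ⟨IntermediateField.adjoin ℚ {π}, IntermediateField.adjoin.finiteDimensional
      ((AlgebraicClosure.isAlgebraic ℚ).isAlgebraic π).isIntegral, fun g hg => ?_⟩
    show algebraMap (ZMod p) k (β g) = 0
    rw [hzero g (hg π (IntermediateField.mem_adjoin_simple_self ℚ π)), map_zero]
  · show algebraMap (ZMod p) k (β σ₀) = 0
    rw [hzero σ₀ hσπ, map_zero]
  · have : β s = 0 := (algebraMap (ZMod p) k).injective (hbs.trans (map_zero _).symm)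
    exact hs.2 π hπ (by rw [hβ s, this, AddChar.map_zero_eq_one, one_mul])

end Fermat.Agent.Engine
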